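import Fermat.Agent.S41.H70.Count

/-!
# Program A / leaf (C) (helper69): the exact (inclusion–exclusion) counting lemma

Abstract analytic core of the exact Frobenius density statement.  Let `K` be a number field,
`X` a set of degree-one primes of `K`, and `bad i` (`i : ι`, `ι` finite) sets of primes.  Suppose
that for every `D : Finset ι` the set `{v ∈ X | ∀ i ∈ D, v ∈ bad i}`, times a finite set `T D`,
is in norm-preserving bijection with the degree-one primes of a number field `M D`, up to
finitely many exceptions.  If `∑ D, (-1) ^ #D / #(T D) > 0` then some `v ∈ X` lies in no `bad i`.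

Only the two-sided estimate "the degree-one primes of a number field carry
`log (1/(s-1)) + O(1)`" (landed in `S14/H81`) is used.
-/

set_option autoImplicit false

open Filter Topology NumberField Ideal IsDedekindDomain

namespace Fermat.Agent.S29.H69

open Fermat.Agent.S14.H81

/-- Pointwise inclusion–exclusion. -/
theorem ite_forall_not_eq_sum {ι : Type*} [Fintype ι] [DecidableEq ι] (p : ι → Prop)
    [DecidablePred p] :
    (if ∀ i, ¬ p i then (1 : ℝ) else 0) =
      ∑ D : Finset ι, (-1 : ℝ) ^ D.card * (if ∀ i ∈ D, p i then 1 else 0) := by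
  have h1 : (if ∀ i, ¬ p i then (1 : ℝ) else 0) = ∏ i, ((1 : ℝ) - if p i then 1 else 0) := by
    by_cases h : ∀ i, ¬ p i
    · rw [if_pos h]
      symm
      refine Finset.prod_eq_one fun i _ => ?_
      rw [if_neg (h i), sub_zero]
    · rw [if_neg h]
      push Not at h
      obtain ⟨i, hi⟩ := h
      symm
      refine Finset.prod_eq_zero (Finset.mem_univ i) ?_
      rw [if_pos hi, sub_self]
  have h2 : ∀ D : Finset ι, (if ∀ i ∈ D, p i then (1 : ℝ) else 0) =
      ∏ i ∈ D, (if p i then (1 : ℝ) else 0) := by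
    intro D
    by_cases h : ∀ i ∈ D, p i
    · rw [if_pos h]
      symm
      exact Finset.prod_eq_one fun i hi => if_pos (h i hi)
    · rw [if_neg h]
      push Not at h
      obtain ⟨i, hiD, hi⟩ := h
      symm
      exact Finset.prod_eq_zero hiD (if_neg hi)
  rw [h1, Finset.prod_sub, Finset.powerset_univ]
  refine Finset.sum_congr rfl fun D _ => ?_
  rw [h2, Finset.prod_const_one, mul_one]

/-- The exact count: inclusion–exclusion over the finite index set. -/
theorem exists_degOne_forall_not_mem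
    (K : Type*) [Field K] [NumberField K]
    {ι : Type*} [Fintype ι]
    (M : Finset ι → Type*) [∀ D, Field (M D)] [∀ D, NumberField (M D)]
    (T : Finset ι → Type*) [∀ D, Fintype (T D)] [∀ D, Nonempty (T D)]
    (hdens : 0 < ∑ D : Finset ι, (-1 : ℝ) ^ D.card / (Fintype.card (T D)))
    (X : Set (HeightOneSpectrum (𝓞 K)))
    (bad : ι → Set (HeightOneSpectrum (𝓞 K)))
    (J : ∀ D, HeightOneSpectrum (𝓞 K) → T D → HeightOneSpectrum (𝓞 (M D)))
    (hJnorm : ∀ D, ∀ v ∈ X, (∀ i ∈ D, v ∈ bad i) →
      ∀ t, absNorm (J D v t).asIdeal = absNorm v.asIdeal)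
    (hJdeg : ∀ D, ∀ v ∈ X, (∀ i ∈ D, v ∈ bad i) → ∀ t, J D v t ∈ degOne (M D))
    (hJinj : ∀ D, ∀ v ∈ X, (∀ i ∈ D, v ∈ bad i) → ∀ v' ∈ X, (∀ i ∈ D, v' ∈ bad i) →
      ∀ t t', J D v t = J D v' t' → v = v' ∧ t = t')
    (hJsurj : ∀ D, {w | w ∈ degOne (M D) ∧
      ¬ ∃ v ∈ X, (∀ i ∈ D, v ∈ bad i) ∧ ∃ t, J D v t = w}.Finite) :
    ∃ v ∈ X, ∀ i, v ∉ bad i := by
  classical
  by_contra hcon
  push Not at hcon
  -- the constants
  have hCM : ∀ D : Finset ι, ∃ C : ℝ, ∀ s : ℝ, 1 < s → s ≤ 2 →
      |∑' v : ↥(degOne (M D)), (absNorm v.1.asIdeal : ℝ) ^ (-s) - Real.log (1 / (s - 1))| ≤ C :=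
    fun D => exists_abs_degOneSum_sub_le (M D)
  choose CM hCM using hCM
  set E : Finset ι → ℝ := fun D => ((hJsurj D).toFinset.card : ℝ) with hE
  set c : ℝ := ∑ D : Finset ι, (-1 : ℝ) ^ D.card / (Fintype.card (T D)) with hc
  set A : ℝ := ∑ D : Finset ι, (CM D + E D) with hA
  -- the sets
  set SD : Finset ι → Set (HeightOneSpectrum (𝓞 K)) :=
    fun D => {v | v ∈ X ∧ ∀ i ∈ D, v ∈ bad i} with hSD
  have key : ∀ s : ℝ, 1 < s → s ≤ 2 → c * Real.log (1 / (s - 1)) ≤ A := by
    intro s hs1 hs2
    set Lg : ℝ := Real.log (1 / (s - 1)) with hLg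
    have hs0 : (0 : ℝ) ≤ s := by linarith
    set f : HeightOneSpectrum (𝓞 K) → ℝ := fun v => (absNorm v.asIdeal : ℝ) ^ (-s) with hf
    have hfsum : Summable f := summable_prime_rpow K hs1
    have hfnn : ∀ v, 0 ≤ f v := fun v => by rw [hf]; positivity
    -- Claim 1
    have claim1 : ∀ D : Finset ι,
        |(Fintype.card (T D) : ℝ) * ∑' v : ↥(SD D), f v - Lg| ≤ CM D + E D := by
      intro D
      set g : HeightOneSpectrum (𝓞 (M D)) → ℝ := fun w => (absNorm w.asIdeal : ℝ) ^ (-s) with hg
      have hgsum : Summable g := summable_prime_rpow (M D) hs1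
      have hgnn : ∀ w, 0 ≤ g w := fun w => by rw [hg]; positivity
      set Jp : ↥(SD D) × T D → HeightOneSpectrum (𝓞 (M D)) := fun p => J D p.1.1 p.2 with hJp
      have hJpinj : Function.Injective Jp := by
        rintro ⟨⟨v, hv⟩, t⟩ ⟨⟨v', hv'⟩, t'⟩ h
        obtain ⟨h1, h2⟩ := hJinj D v hv.1 hv.2 v' hv'.1 hv'.2 t t' h
        subst h1
        subst h2
        rfl
      have hJpval : ∀ p, g (Jp p) = f p.1.1 := by
        rintro ⟨⟨v, hv⟩, t⟩
        show ((absNorm (J D v t).asIdeal : ℕ) : ℝ) ^ (-s) = (absNorm v.asIdeal : ℝ) ^ (-s)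
        rw [hJnorm D v hv.1 hv.2 t]
      have hrange : Set.range Jp ⊆ degOne (M D) := by
        rintro _ ⟨⟨⟨v, hv⟩, t⟩, rfl⟩
        exact hJdeg D v hv.1 hv.2 t
      set Exc : Set (HeightOneSpectrum (𝓞 (M D))) := {w | w ∈ degOne (M D) ∧
        ¬ ∃ v ∈ X, (∀ i ∈ D, v ∈ bad i) ∧ ∃ t, J D v t = w} with hExc
      have hunion : degOne (M D) = Set.range Jp ∪ Exc := by
        ext w
        constructor
        · intro hw
          by_cases h : ∃ v ∈ X, (∀ i ∈ D, v ∈ bad i) ∧ ∃ t, J D v t = w
          · obtain ⟨v, hvX, hvD, t, rfl⟩ := h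
            exact Or.inl ⟨⟨⟨v, hvX, hvD⟩, t⟩, rfl⟩
          · exact Or.inr ⟨hw, h⟩
        · rintro (hw | hw)
          · exact hrange hw
          · exact hw.1
      have hdisj : Disjoint (Set.range Jp) Exc := by
        rw [Set.disjoint_left]
        rintro _ ⟨⟨⟨v, hv⟩, t⟩, rfl⟩ hw
        exact hw.2 ⟨v, hv.1, hv.2, t, rfl⟩
      have e1 : ∑' w : ↥(degOne (M D)), g w =
          ∑' w : ↥(Set.range Jp), g w + ∑' w : ↥Exc, g w := by
        rw [hunion]
        exact (hgsum.subtype _).tsum_union_disjoint hdisj (hgsum.subtype _)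
      have e2 : ∑' w : ↥(Set.range Jp), g w = ∑' p : ↥(SD D) × T D, g (Jp p) :=
        tsum_range g hJpinj
      have hsum3 : Summable fun p : ↥(SD D) × T D => f p.1.1 := by
        have := hgsum.comp_injective hJpinj
        exact this.congr hJpval
      have e3 : ∑' p : ↥(SD D) × T D, g (Jp p) =
          (Fintype.card (T D) : ℝ) * ∑' v : ↥(SD D), f v := by
        rw [tsum_congr hJpval, hsum3.tsum_prod]
        simp only [tsum_fintype, Finset.sum_const, Finset.card_univ, nsmul_eq_mul]
        rw [tsum_mul_left]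
      have e4 : 0 ≤ ∑' w : ↥Exc, g w := tsum_nonneg fun w => hgnn w
      have e5 : ∑' w : ↥Exc, g w ≤ E D := by
        have hfin : Exc.Finite := hJsurj D
        have h1 : ∑' w : ↥Exc, g w = ∑ w ∈ hfin.toFinset, g w := by
          rw [← Finset.tsum_subtype]
          exact tsum_congr_set_coe g (by rw [Set.Finite.coe_toFinset])
        rw [h1]
        calc ∑ w ∈ hfin.toFinset, g w ≤ ∑ _w ∈ hfin.toFinset, (1 : ℝ) :=
              Finset.sum_le_sum fun w _ => Fermat.Agent.S41.H70.rpow_absNorm_le_one (M D) hs0 w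
          _ = (hfin.toFinset.card : ℝ) := by rw [Finset.sum_const, nsmul_eq_mul, mul_one]
          _ = E D := rfl
      have h6 := abs_le.mp (hCM D s hs1 hs2)
      rw [e1, e2, e3] at h6
      rw [abs_le]
      constructor <;> linarith [h6.1, h6.2]
    -- Claim 2
    have claim2 : ∑ D : Finset ι, (-1 : ℝ) ^ D.card * ∑' v : ↥(SD D), f v = 0 := by
      have h1 : ∀ D : Finset ι, ∑' v : ↥(SD D), f v = ∑' v, (SD D).indicator f v :=
        fun D => tsum_subtype (SD D) f
      simp only [h1]
      have h2 : ∀ D : Finset ι, Summable fun v => (-1 : ℝ) ^ D.card * (SD D).indicator f v :=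
        fun D => (hfsum.indicator (SD D)).mul_left _
      simp only [← tsum_mul_left]
      rw [← Summable.tsum_finsetSum fun D _ => h2 D]
      have h3 : ∀ v, ∑ D : Finset ι, (-1 : ℝ) ^ D.card * (SD D).indicator f v = 0 := by
        intro v
        by_cases hvX : v ∈ X
        · have h4 := ite_forall_not_eq_sum (fun i => v ∈ bad i)
          rw [if_neg (by push Not; exact hcon v hvX)] at h4
          have h5 : ∀ D : Finset ι, (SD D).indicator f v =
              (if ∀ i ∈ D, v ∈ bad i then (1 : ℝ) else 0) * f v := by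
            intro D
            by_cases h : ∀ i ∈ D, v ∈ bad i
            · rw [if_pos h, one_mul, Set.indicator_of_mem (show v ∈ SD D from ⟨hvX, h⟩)]
            · rw [if_neg h, zero_mul, Set.indicator_of_notMem (fun hv : v ∈ SD D => h hv.2)]
          simp only [h5, ← mul_assoc]
          rw [← Finset.sum_mul, ← h4, zero_mul]
        · refine Finset.sum_eq_zero fun D _ => ?_
          rw [Set.indicator_of_notMem (fun hv : v ∈ SD D => hvX hv.1), mul_zero]
      simp only [h3, tsum_zero]
    -- conclusion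
    have hk : ∀ D : Finset ι, (1 : ℝ) ≤ (Fintype.card (T D) : ℝ) := fun D => by
      exact_mod_cast Fintype.card_pos
    have h7 : c * Lg = ∑ D : Finset ι, (-1 : ℝ) ^ D.card *
        (Lg / (Fintype.card (T D)) - ∑' v : ↥(SD D), f v) := by
      simp only [mul_sub, Finset.sum_sub_distrib]
      rw [claim2, sub_zero, hc, Finset.sum_mul]
      exact Finset.sum_congr rfl fun D _ => by ring
    rw [h7, hA]
    refine Finset.sum_le_sum fun D _ => ?_
    have h8 : |Lg / (Fintype.card (T D)) - ∑' v : ↥(SD D), f v| ≤ CM D + E D := by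
      have h9 := claim1 D
      have hkpos : (0 : ℝ) < (Fintype.card (T D) : ℝ) := by linarith [hk D]
      have h10 : Lg / (Fintype.card (T D)) - ∑' v : ↥(SD D), f v =
          -(((Fintype.card (T D) : ℝ) * ∑' v : ↥(SD D), f v - Lg) / (Fintype.card (T D))) := by
        field_simp
        ring
      rw [h10, abs_neg, abs_div, abs_of_pos hkpos]
      have h11 : 0 ≤ CM D + E D := le_trans (abs_nonneg _) h9
      calc |(Fintype.card (T D) : ℝ) * ∑' v : ↥(SD D), f v - Lg| / (Fintype.card (T D))
          ≤ (CM D + E D) / (Fintype.card (T D)) := by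
            exact div_le_div_of_nonneg_right h9 hkpos.le
        _ ≤ CM D + E D := div_le_self h11 (hk D)
    have h12 : |(-1 : ℝ) ^ D.card * (Lg / (Fintype.card (T D)) - ∑' v : ↥(SD D), f v)| ≤
        CM D + E D := by
      rw [abs_mul, abs_pow, abs_neg, abs_one, one_pow, one_mul]
      exact h8
    exact le_trans (le_abs_self _) h12
  -- choose `s` with `log (1/(s-1)) = t` large
  set t : ℝ := (|A| + 1) / c with ht
  have htpos : 0 < t := by rw [ht]; positivity
  have hs1 : 1 < 1 + Real.exp (-t) := by linarith [Real.exp_pos (-t)]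
  have hs2 : 1 + Real.exp (-t) ≤ 2 := by
    have : Real.exp (-t) ≤ 1 := Real.exp_le_one_iff.mpr (by linarith)
    linarith
  have hlog : Real.log (1 / (1 + Real.exp (-t) - 1)) = t := by
    rw [add_sub_cancel_left, one_div, ← Real.exp_neg, neg_neg, Real.log_exp]
  have h := key _ hs1 hs2
  rw [hlog, ht, mul_div_cancel₀ _ hdens.ne'] at h
  linarith [le_abs_self A]

end Fermat.Agent.S29.H69
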