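import Fermat.Agent.S29.H69.FrobQbar

/-!
# Program A / leaf (C) (helper69): exact cyclic Frobenius density, two-sided coset form

`exists_frobenius_pow_mem_coset`: modulo any open subgroup `U` of `Gal(ℚ̄/ℚ)`, every `g` generates
the same cyclic subgroup as a Frobenius element `h` at a valuation subring over a prime `ℓ` outside
any given finite set: `g ≡ h ^ i` and `h ≡ g ^ j` modulo `U` (the statement shape announced by
helper10 for the consumers of Program A / S30 / S31).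
-/

set_option autoImplicit false
set_option linter.style.haveILetI false

open NumberField Ideal IsDedekindDomain
open scoped Pointwise

namespace Fermat.Agent.S29.H69

open Fermat.Agent.S41.H70

section Open

variable {Ω : Type*} [Field Ω] [Algebra ℚ Ω] [IsGalois ℚ Ω]

/-- Two-sided "for all" form: for every valuation subring `A` over `l` and every Frobenius
element `σ` at `A` there is a conjugate `σ' = τ σ τ⁻¹` with `σ' ^ i ≡ g` and `g ^ j ≡ σ'`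
modulo `U`. -/
theorem exists_prime_forall_isFrobeniusAt_pow_mem_both
    (U : Subgroup (Ω ≃ₐ[ℚ] Ω)) (hopen : IsOpen (U : Set (Ω ≃ₐ[ℚ] Ω))) (g : Ω ≃ₐ[ℚ] Ω) (B : ℕ) :
    ∃ l : ℕ, l.Prime ∧ B < l ∧ ∀ A : ValuationSubring Ω, A.LiesOverPrime l →
      ∀ σ : Ω ≃ₐ[ℚ] Ω, A.IsFrobeniusAt σ l →
        ∃ (τ : Ω ≃ₐ[ℚ] Ω) (i j : ℕ),
          g⁻¹ * (τ * σ * τ⁻¹) ^ i ∈ U ∧ (τ * σ * τ⁻¹) ^ i * g⁻¹ ∈ U ∧
          (τ * σ * τ⁻¹)⁻¹ * g ^ j ∈ U ∧ g ^ j * (τ * σ * τ⁻¹)⁻¹ ∈ U := by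
  have hnhds : (U : Set (Ω ≃ₐ[ℚ] Ω)) ∈ nhds (1 : Ω ≃ₐ[ℚ] Ω) := hopen.mem_nhds U.one_mem
  obtain ⟨E, hfd, hnormal₁, hE⟩ := (krullTopology_mem_nhds_one_iff_of_normal ℚ Ω _).mp hnhds
  haveI : NumberField E := by
    refine @NumberField.mk _ _ inferInstance ?_
    convert hfd
    all_goals first
      | rfl
      | exact (subsingleton_rat_module (↥E)).elim _ _
  haveI : Normal ℚ E := by
    convert hnormal₁
    all_goals first
      | rfl
      | exact Rat.algebra_rat_subsingleton.elim _ _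
  haveI : IsGalois ℚ E := ⟨⟩
  have hrsurj := AlgEquiv.restrictNormalHom_surjective (F := ℚ) (K₁ := ↥E) Ω
  have hr : ∀ (σ : Ω ≃ₐ[ℚ] Ω) (x : ↥E),
      algebraMap (↥E) Ω (AlgEquiv.restrictNormalHom (F := ℚ) (K₁ := Ω) ↥E σ x) =
        σ (algebraMap (↥E) Ω x) :=
    fun σ x => AlgEquiv.restrictNormal_commutes σ _ x
  set r := AlgEquiv.restrictNormalHom (F := ℚ) (K₁ := Ω) ↥E with hrdef
  have hker : r.ker ≤ U := by
    intro σ hσ
    rw [MonoidHom.mem_ker] at hσ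
    refine hE ?_
    rw [SetLike.mem_coe, IntermediateField.mem_fixingSubgroup_iff]
    intro x hx
    have h1 := hr σ ⟨x, hx⟩
    rw [hσ] at h1
    exact h1.symm
  obtain ⟨l, hl, hBl, hall⟩ := exists_prime_forall_isFrobeniusAt_zpowers_aux
    (algebraMap (↥E) Ω) r hr hrsurj (r g) B
  refine ⟨l, hl, hBl, fun A hA σ hσ => ?_⟩
  obtain ⟨τ, hτ⟩ := hall A hA σ hσ
  have h1 : r g ∈ Subgroup.zpowers (r (τ * σ * τ⁻¹)) := by
    rw [hτ]
    exact Subgroup.mem_zpowers _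
  have h2 : r (τ * σ * τ⁻¹) ∈ Subgroup.zpowers (r g) := by
    rw [← hτ]
    exact Subgroup.mem_zpowers _
  rw [← mem_powers_iff_mem_zpowers] at h1 h2
  obtain ⟨i, hi⟩ := h1
  obtain ⟨j, hj⟩ := h2
  have hi' : r ((τ * σ * τ⁻¹) ^ i) = r g := by
    rw [map_pow]
    exact hi
  have hj' : r (g ^ j) = r (τ * σ * τ⁻¹) := by
    rw [map_pow]
    exact hj
  refine ⟨τ, i, j, hker ?_, hker ?_, hker ?_, hker ?_⟩
  · rw [MonoidHom.mem_ker, map_mul, map_inv, hi', inv_mul_cancel]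
  · rw [MonoidHom.mem_ker, map_mul, map_inv, hi', mul_inv_cancel]
  · rw [MonoidHom.mem_ker, map_mul, map_inv, hj', inv_mul_cancel]
  · rw [MonoidHom.mem_ker, map_mul, map_inv, hj', mul_inv_cancel]

/-- Two-sided existence form over any Galois `Ω / ℚ`. -/
theorem exists_isFrobeniusAt_pow_mem_both
    (U : Subgroup (Ω ≃ₐ[ℚ] Ω)) (hopen : IsOpen (U : Set (Ω ≃ₐ[ℚ] Ω))) (g : Ω ≃ₐ[ℚ] Ω) (B : ℕ) :
    ∃ (l : ℕ) (A : ValuationSubring Ω) (h : Ω ≃ₐ[ℚ] Ω) (i j : ℕ), l.Prime ∧ B < l ∧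
      A.LiesOverPrime l ∧ A.IsFrobeniusAt h l ∧ g⁻¹ * h ^ i ∈ U ∧ h ^ i * g⁻¹ ∈ U ∧
      h⁻¹ * g ^ j ∈ U ∧ g ^ j * h⁻¹ ∈ U := by
  obtain ⟨l, hl, hBl, hall⟩ := exists_prime_forall_isFrobeniusAt_pow_mem_both U hopen g B
  obtain ⟨A, hA, σ, hσ⟩ := Fermat.Agent.S54.exists_isFrobeniusAt_of_isGalois Ω l hl
  obtain ⟨τ, i, j, h1, h2, h3, h4⟩ := hall A hA σ hσ
  exact ⟨l, τ • A, τ * σ * τ⁻¹, i, j, hl, hBl, smul_liesOverPrime A τ hA,
    isFrobeniusAt_conj hσ τ, h1, h2, h3, h4⟩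

end Open

section QbarForm

local notation "Qbar" => AlgebraicClosure ℚ
local notation "Γ" => (AlgebraicClosure ℚ ≃ₐ[ℚ] AlgebraicClosure ℚ)

/-- **Exact cyclic Frobenius density, coset form** (shape of helper10's claim row).  Modulo any
open subgroup `U` of `Gal(ℚ̄/ℚ)`, every `g` generates the same cyclic subgroup as a Frobenius
element `h` at a valuation subring `A` over a prime `ℓ` outside a given finite set `T`. -/
theorem exists_frobenius_pow_mem_coset (U : Subgroup Γ) (hU : IsOpen (U : Set Γ)) (g : Γ)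
    (T : Finset ℕ) :
    ∃ (ℓ : ℕ) (A : ValuationSubring Qbar) (h : Γ) (i j : ℕ), ℓ.Prime ∧ ℓ ∉ T ∧
      A.LiesOverPrime ℓ ∧ A.IsFrobeniusAt h ℓ ∧ g⁻¹ * h ^ i ∈ U ∧ h⁻¹ * g ^ j ∈ U := by
  haveI := Fermat.Agent.S54.isGalois_algebraicClosure_rat
  obtain ⟨l, A, h, i, j, hl, hBl, hA, hh, h1, -, h3, -⟩ :=
    exists_isFrobeniusAt_pow_mem_both U hU g (T.sup id)
  refine ⟨l, A, h, i, j, hl, fun hmem => ?_, hA, hh, h1, h3⟩
  have h5 : l ≤ T.sup id := Finset.le_sup (f := id) hmem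
  omega

/-- The same with the four coset relations and a bound instead of a finite set. -/
theorem exists_frobenius_pow_mem_coset' (U : Subgroup Γ) (hU : IsOpen (U : Set Γ)) (g : Γ)
    (B : ℕ) :
    ∃ (ℓ : ℕ) (A : ValuationSubring Qbar) (h : Γ) (i j : ℕ), ℓ.Prime ∧ B < ℓ ∧
      A.LiesOverPrime ℓ ∧ A.IsFrobeniusAt h ℓ ∧ g⁻¹ * h ^ i ∈ U ∧ h ^ i * g⁻¹ ∈ U ∧
      h⁻¹ * g ^ j ∈ U ∧ g ^ j * h⁻¹ ∈ U :=
  haveI := Fermat.Agent.S54.isGalois_algebraicClosure_rat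
  exists_isFrobeniusAt_pow_mem_both U hU g B

end QbarForm

end Fermat.Agent.S29.H69
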