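import Fermat.Agent.S29.H69.FrobCoset

/-!
# Program A / leaf (C) (helper69): exact cyclic Frobenius density, positive exponents

Variants of `exists_frobenius_pow_mem_coset` with exponent `i ≥ 1` (shape asked by the S31
skeleton: "`h ^ i ∈ g * Fix(L)`, `i ≥ 1`").
-/

set_option autoImplicit false
set_option linter.style.haveILetI false

namespace Fermat.Agent.S29.H69

section Open

variable {Ω : Type*} [Field Ω] [Algebra ℚ Ω] [IsGalois ℚ Ω]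

/-- A positive power of every element lies in a given open subgroup of `Gal(Ω/ℚ)`. -/
theorem exists_pos_pow_mem_of_isOpen (U : Subgroup (Ω ≃ₐ[ℚ] Ω))
    (hopen : IsOpen (U : Set (Ω ≃ₐ[ℚ] Ω))) (h : Ω ≃ₐ[ℚ] Ω) : ∃ m : ℕ, 0 < m ∧ h ^ m ∈ U := by
  haveI := Subgroup.quotient_finite_of_isOpen U hopen
  haveI : U.FiniteIndex := Subgroup.finiteIndex_of_finite_quotient
  obtain ⟨m, hm, -, hmU⟩ := Subgroup.exists_pow_mem_of_index_ne_zero
    (Subgroup.FiniteIndex.index_ne_zero (H := U)) h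
  exact ⟨m, hm, hmU⟩

/-- Exact cyclic Frobenius density over a Galois `Ω / ℚ`, with a positive exponent. -/
theorem exists_isFrobeniusAt_pos_pow_mem
    (U : Subgroup (Ω ≃ₐ[ℚ] Ω)) (hopen : IsOpen (U : Set (Ω ≃ₐ[ℚ] Ω))) (g : Ω ≃ₐ[ℚ] Ω) (B : ℕ) :
    ∃ (l : ℕ) (A : ValuationSubring Ω) (h : Ω ≃ₐ[ℚ] Ω) (i : ℕ), l.Prime ∧ B < l ∧
      A.LiesOverPrime l ∧ A.IsFrobeniusAt h l ∧ 0 < i ∧ g⁻¹ * h ^ i ∈ U ∧ h ^ i * g⁻¹ ∈ U := by
  obtain ⟨l, A, h, i, -, hl, hBl, hA, hh, h1, h2, -, -⟩ :=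
    exists_isFrobeniusAt_pow_mem_both U hopen g B
  obtain ⟨m, hm, hmU⟩ := exists_pos_pow_mem_of_isOpen U hopen h
  refine ⟨l, A, h, i + m, hl, hBl, hA, hh, by omega, ?_, ?_⟩
  · have h3 : g⁻¹ * h ^ (i + m) = g⁻¹ * h ^ i * h ^ m := by rw [pow_add, mul_assoc]
    rw [h3]
    exact U.mul_mem h1 hmU
  · have h3 : h ^ (i + m) * g⁻¹ = h ^ m * (h ^ i * g⁻¹) := by
      rw [add_comm, pow_add, mul_assoc]
    rw [h3]
    exact U.mul_mem hmU h2

end Open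

section QbarForm

local notation "Qbar" => AlgebraicClosure ℚ
local notation "Γ" => (AlgebraicClosure ℚ ≃ₐ[ℚ] AlgebraicClosure ℚ)

/-- **Exact cyclic Frobenius density, `ℚ̄` form with positive exponent**: for an open subgroup
`U` of `Gal(ℚ̄/ℚ)`, `g` and a bound `B` there are a prime `ℓ > B`, a valuation subring `A` over
`ℓ`, a Frobenius element `h` at `A` and `i ≥ 1` with `h ^ i ∈ g U ∩ U g`. -/
theorem exists_frobenius_pos_pow_mem_coset (U : Subgroup Γ) (hU : IsOpen (U : Set Γ)) (g : Γ)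
    (B : ℕ) :
    ∃ (ℓ : ℕ) (A : ValuationSubring Qbar) (h : Γ) (i : ℕ), ℓ.Prime ∧ B < ℓ ∧
      A.LiesOverPrime ℓ ∧ A.IsFrobeniusAt h ℓ ∧ 0 < i ∧ g⁻¹ * h ^ i ∈ U ∧ h ^ i * g⁻¹ ∈ U :=
  haveI := Fermat.Agent.S54.isGalois_algebraicClosure_rat
  exists_isFrobeniusAt_pos_pow_mem U hU g B

/-- The same for the fixing subgroup of a finite extension `L / ℚ` inside `ℚ̄` (not necessarily
normal): `h ^ i ∈ g * Fix(L)`, `i ≥ 1`. -/
theorem exists_frobenius_pos_pow_mem_fixingSubgroup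
    (L : IntermediateField ℚ (AlgebraicClosure ℚ)) [FiniteDimensional ℚ L] (g : Γ) (B : ℕ) :
    ∃ (ℓ : ℕ) (A : ValuationSubring Qbar) (h : Γ) (i : ℕ), ℓ.Prime ∧ B < ℓ ∧
      A.LiesOverPrime ℓ ∧ A.IsFrobeniusAt h ℓ ∧ 0 < i ∧ g⁻¹ * h ^ i ∈ L.fixingSubgroup ∧
      h ^ i * g⁻¹ ∈ L.fixingSubgroup :=
  exists_frobenius_pos_pow_mem_coset L.fixingSubgroup (IntermediateField.fixingSubgroup_isOpen L)
    g B

end QbarForm

end Fermat.Agent.S29.H69
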