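import Fermat.Agent.S29.H69.FrobExact

/-!
# Program A / leaf (C) (helper69): Frobenius density, exact cyclic form (number-field level)

* `exists_prime_forall_frobenius_of_ne`: the "all primes above `l`, all Frobenius elements" form
  of `exists_frobenius_not_mem_of_ne`.
* `exists_frobenius_zpowers_eq`: every `g ∈ Gal(L/ℚ)` generates the same cyclic subgroup as a
  Frobenius element at a prime above an arbitrarily large rational prime.
* `exists_prime_forall_frobenius_zpowers_eq`: there are arbitrarily large rational primes `l`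
  such that every Frobenius element above `l` is conjugate to a generator of `⟨g⟩`.
-/

set_option autoImplicit false
set_option linter.style.haveILetI false

open NumberField Ideal IsDedekindDomain

namespace Fermat.Agent.S29.H69

open Fermat.Agent.S41.H70

section

variable {L : Type*} [Field L] [NumberField L] [IsGalois ℚ L]

/-- **Frobenius density, exact form, for all Frobenius elements above `l`.** -/
theorem exists_prime_forall_frobenius_of_ne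
    (H : Subgroup (L ≃ₐ[ℚ] L)) {ι : Type*} [Fintype ι] (H' : ι → Subgroup (L ≃ₐ[ℚ] L))
    (hnormal : ∀ i, ∀ τ ∈ H, ∀ σ ∈ H' i, τ * σ * τ⁻¹ ∈ H' i)
    (hne : ∃ h ∈ H, ∀ i, h ∉ H' i) (B : ℕ) :
    ∃ l : ℕ, l.Prime ∧ B < l ∧ ∀ P : Ideal (𝓞 L), P.IsPrime → (l : 𝓞 L) ∈ P →
      ∀ σ : L ≃ₐ[ℚ] L, (∀ x : 𝓞 L, σ • x - x ^ l ∈ P) →
        ∃ τ : L ≃ₐ[ℚ] L, τ * σ * τ⁻¹ ∈ H ∧ ∀ i, τ * σ * τ⁻¹ ∉ H' i := by
  obtain ⟨d, hd⟩ := exists_bound_frob_unique (L := L)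
  obtain ⟨l, P₀, σ₀, hl, hBl, hP₀, hlP₀, hσ₀H, hσ₀', hσ₀⟩ :=
    exists_frobenius_not_mem_of_ne H H' hnormal hne (max B d)
  refine ⟨l, hl, lt_of_le_of_lt (le_max_left _ _) hBl, fun P hP hlP σ hσ => ?_⟩
  haveI := hP₀
  haveI := hP
  haveI := isInvariant_ringOfIntegers (L := L)
  obtain ⟨g, hg⟩ := Algebra.IsInvariant.exists_smul_of_under_eq ℤ (𝓞 L) (L ≃ₐ[ℚ] L) P₀ P
    ((under_int_eq P₀ l hl hlP₀).trans (under_int_eq P l hl hlP).symm)
  have hPconj : P = conjIdeal g P₀ := by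
    rw [hg]
    ext x
    rw [Ideal.mem_pointwise_smul_iff_inv_smul_mem, mem_conjIdeal]
  have h1 : ∀ x : 𝓞 L, (g * σ₀ * g⁻¹) • x - x ^ l ∈ P := by
    rw [hPconj]
    exact frob_conj hσ₀ g
  have h2 : σ = g * σ₀ * g⁻¹ :=
    hd l hl (lt_of_le_of_lt (le_max_right _ _) hBl) P hP hlP σ _ hσ h1
  have h3 : g⁻¹ * (g * σ₀ * g⁻¹) * g⁻¹⁻¹ = σ₀ := by group
  refine ⟨g⁻¹, ?_, fun i => ?_⟩
  · rw [h2, h3]
    exact hσ₀H
  · rw [h2, h3]
    exact hσ₀' i

end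

section Cyclic

variable {G : Type*} [Group G]

/-- Conjugation inside a cyclic group is trivial. -/
theorem conj_mem_of_mem_zpowers (g : G) {V : Subgroup G} {τ σ : G}
    (hτ : τ ∈ Subgroup.zpowers g) (hV : V ≤ Subgroup.zpowers g) (hσ : σ ∈ V) :
    τ * σ * τ⁻¹ ∈ V := by
  obtain ⟨i, rfl⟩ := Subgroup.mem_zpowers_iff.mp hτ
  obtain ⟨j, hj⟩ := Subgroup.mem_zpowers_iff.mp (hV hσ)
  have h1 : g ^ i * σ * (g ^ i)⁻¹ = σ := by
    rw [← hj, ← zpow_neg, ← zpow_add, ← zpow_add]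
    congr 1
    ring
  rw [h1]
  exact hσ

/-- An element of a cyclic group lying in no proper subgroup generates it. -/
theorem zpowers_eq_of_forall_lt_notMem (g : G) {σ : G} (hσ : σ ∈ Subgroup.zpowers g)
    (h : ∀ V : Subgroup G, V < Subgroup.zpowers g → σ ∉ V) :
    Subgroup.zpowers σ = Subgroup.zpowers g := by
  have hle : Subgroup.zpowers σ ≤ Subgroup.zpowers g := Subgroup.zpowers_le.mpr hσ
  by_contra hne
  exact h _ (lt_of_le_of_ne hle hne) (Subgroup.mem_zpowers σ)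

end Cyclic

section

variable {L : Type*} [Field L] [NumberField L] [IsGalois ℚ L]

/-- **Frobenius density, exact cyclic form.**  Every `g ∈ Gal(L/ℚ)` generates the same cyclic
subgroup as a Frobenius element at a prime of `𝓞 L` above a rational prime `l > B`. -/
theorem exists_frobenius_zpowers_eq (g : L ≃ₐ[ℚ] L) (B : ℕ) :
    ∃ (l : ℕ) (P : Ideal (𝓞 L)) (σ : L ≃ₐ[ℚ] L), l.Prime ∧ B < l ∧ P.IsPrime ∧ (l : 𝓞 L) ∈ P ∧
      (∀ x : 𝓞 L, σ • x - x ^ l ∈ P) ∧ Subgroup.zpowers σ = Subgroup.zpowers g := by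
  classical
  haveI : Fintype {V : Subgroup (L ≃ₐ[ℚ] L) // V < Subgroup.zpowers g} := Fintype.ofFinite _
  obtain ⟨l, P, σ, hl, hBl, hP, hlP, hσH, hσ', hσ⟩ :=
    exists_frobenius_not_mem_of_ne (Subgroup.zpowers g)
      (fun V : {V : Subgroup (L ≃ₐ[ℚ] L) // V < Subgroup.zpowers g} => V.1)
      (fun V τ hτ σ hσ => conj_mem_of_mem_zpowers g hτ V.2.le hσ)
      ⟨g, Subgroup.mem_zpowers g, fun V hgV =>
        not_le_of_gt V.2 (Subgroup.zpowers_le.mpr hgV)⟩ B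
  exact ⟨l, P, σ, hl, hBl, hP, hlP, hσ,
    zpowers_eq_of_forall_lt_notMem g hσH fun V hV => hσ' ⟨V, hV⟩⟩

/-- **Frobenius density, exact cyclic form, for all Frobenius elements above `l`.** -/
theorem exists_prime_forall_frobenius_zpowers_eq (g : L ≃ₐ[ℚ] L) (B : ℕ) :
    ∃ l : ℕ, l.Prime ∧ B < l ∧ ∀ P : Ideal (𝓞 L), P.IsPrime → (l : 𝓞 L) ∈ P →
      ∀ σ : L ≃ₐ[ℚ] L, (∀ x : 𝓞 L, σ • x - x ^ l ∈ P) →
        ∃ τ : L ≃ₐ[ℚ] L, Subgroup.zpowers (τ * σ * τ⁻¹) = Subgroup.zpowers g := by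
  classical
  haveI : Fintype {V : Subgroup (L ≃ₐ[ℚ] L) // V < Subgroup.zpowers g} := Fintype.ofFinite _
  obtain ⟨l, hl, hBl, hall⟩ :=
    exists_prime_forall_frobenius_of_ne (Subgroup.zpowers g)
      (fun V : {V : Subgroup (L ≃ₐ[ℚ] L) // V < Subgroup.zpowers g} => V.1)
      (fun V τ hτ σ hσ => conj_mem_of_mem_zpowers g hτ V.2.le hσ)
      ⟨g, Subgroup.mem_zpowers g, fun V hgV =>
        not_le_of_gt V.2 (Subgroup.zpowers_le.mpr hgV)⟩ B
  refine ⟨l, hl, hBl, fun P hP hlP σ hσ => ?_⟩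
  obtain ⟨τ, hτH, hτ'⟩ := hall P hP hlP σ hσ
  exact ⟨τ, zpowers_eq_of_forall_lt_notMem g hτH fun V hV => hτ' ⟨V, hV⟩⟩

end

end Fermat.Agent.S29.H69
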