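import Fermat.Agent.S29.H69.ExactCount
import Fermat.Agent.S41.H70.FrobAll

/-!
# Program A / leaf (C) (helper69): Frobenius density, exact existence form

`exists_frobenius_not_mem_of_ne`: let `L / ℚ` be a finite Galois extension with group `G`,
`H ≤ G` a subgroup and `H' i` finitely many subgroups normalised by `H` which do NOT cover `H`.
Then for every bound `B` there are a rational prime `l > B`, a prime `P` of `𝓞 L` above `l` and a
Frobenius element `σ` at `P` with `σ ∈ H` and `σ ∉ H' i` for all `i`.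

This removes the hypothesis `∑ 1 / [H : H' i] < 1` of the landed sub-additive version
`Fermat.Agent.S41.H70.exists_frobenius_not_mem` (which fails e.g. for the maximal subgroups of a
cyclic group of order `30`), by inclusion–exclusion over the intersections of the `H' i`.
No Chebotarev: only the two-sided estimate for the degree-one primes of the fixed fields.
-/

set_option autoImplicit false
set_option linter.style.haveILetI false

open NumberField Ideal IsDedekindDomain

namespace Fermat.Agent.S29.H69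

open Fermat.Agent.S14.H81 Fermat.Agent.S41.H70

section Group

variable {G : Type*} [Group G]

/-- The intersection of `H` with the `H' i`, `i ∈ D`. -/
def interSub (H : Subgroup G) {ι : Type*} (H' : ι → Subgroup G) (D : Finset ι) : Subgroup G :=
  H ⊓ ⨅ i ∈ D, H' i

theorem mem_interSub {H : Subgroup G} {ι : Type*} {H' : ι → Subgroup G} {D : Finset ι} {σ : G} :
    σ ∈ interSub H H' D ↔ σ ∈ H ∧ ∀ i ∈ D, σ ∈ H' i := by
  simp [interSub, Subgroup.mem_inf, Subgroup.mem_iInf]

theorem interSub_le (H : Subgroup G) {ι : Type*} (H' : ι → Subgroup G) (D : Finset ι) :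
    interSub H H' D ≤ H := inf_le_left

theorem interSub_normal {H : Subgroup G} {ι : Type*} {H' : ι → Subgroup G}
    (hnormal : ∀ i, ∀ τ ∈ H, ∀ σ ∈ H' i, τ * σ * τ⁻¹ ∈ H' i) (D : Finset ι) :
    ∀ τ ∈ H, ∀ σ ∈ interSub H H' D, τ * σ * τ⁻¹ ∈ interSub H H' D := by
  intro τ hτ σ hσ
  rw [mem_interSub] at hσ ⊢
  exact ⟨H.mul_mem (H.mul_mem hτ hσ.1) (H.inv_mem hτ), fun i hi => hnormal i τ hτ σ (hσ.2 i hi)⟩

/-- The inclusion–exclusion density is positive as soon as the `H' i` do not cover `H`. -/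
theorem density_pos [Finite G] (H : Subgroup G) {ι : Type*} [Fintype ι]
    (H' : ι → Subgroup G) (hne : ∃ h ∈ H, ∀ i, h ∉ H' i) :
    0 < ∑ D : Finset ι, (-1 : ℝ) ^ D.card / (((interSub H H' D).relIndex H : ℕ) : ℝ) := by
  classical
  haveI : Fintype ↥H := Fintype.ofFinite _
  have hcardpos : (0 : ℝ) < (Nat.card ↥H : ℝ) := by exact_mod_cast Nat.card_pos
  have h1 : ∀ D : Finset ι, (((interSub H H' D).relIndex H : ℕ) : ℝ) *
      (∑ h : ↥H, if (∀ i ∈ D, (h : G) ∈ H' i) then (1 : ℝ) else 0) = (Nat.card ↥H : ℝ) := by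
    intro D
    have h2 := Subgroup.card_mul_index ((interSub H H' D).subgroupOf H)
    have h3 : Nat.card ↥((interSub H H' D).subgroupOf H) =
        ∑ h : ↥H, if (∀ i ∈ D, (h : G) ∈ H' i) then 1 else 0 := by
      rw [Nat.card_eq_fintype_card, Fintype.card_subtype, Finset.card_filter]
      refine Finset.sum_congr rfl fun h _ => ?_
      have : h ∈ (interSub H H' D).subgroupOf H ↔ ∀ i ∈ D, (h : G) ∈ H' i := by
        rw [Subgroup.mem_subgroupOf, mem_interSub]
        exact ⟨fun hh => hh.2, fun hh => ⟨h.2, hh⟩⟩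
      simp only [this]
    rw [← h2, h3, Subgroup.relIndex]
    push_cast
    ring
  have hrel : ∀ D : Finset ι, (0 : ℝ) < (((interSub H H' D).relIndex H : ℕ) : ℝ) := by
    intro D
    have h2 := h1 D
    by_contra hle
    have h0 : (((interSub H H' D).relIndex H : ℕ) : ℝ) = 0 :=
      le_antisymm (not_lt.mp hle) (Nat.cast_nonneg _)
    rw [h0, zero_mul] at h2
    exact hcardpos.ne h2
  have h4 : ∑ D : Finset ι, (-1 : ℝ) ^ D.card / (((interSub H H' D).relIndex H : ℕ) : ℝ) =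
      (∑ h : ↥H, if (∀ i, (h : G) ∉ H' i) then (1 : ℝ) else 0) / (Nat.card ↥H : ℝ) := by
    rw [eq_div_iff hcardpos.ne']
    have h5 : ∀ h : ↥H, (if (∀ i, (h : G) ∉ H' i) then (1 : ℝ) else 0) =
        ∑ D : Finset ι, (-1 : ℝ) ^ D.card * (if ∀ i ∈ D, (h : G) ∈ H' i then 1 else 0) :=
      fun h => ite_forall_not_eq_sum (fun i => (h : G) ∈ H' i)
    simp only [h5]
    rw [Finset.sum_comm, Finset.sum_mul]
    refine Finset.sum_congr rfl fun D _ => ?_
    rw [← Finset.mul_sum, ← h1 D]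
    have hr0 := (hrel D).ne'
    field_simp
  rw [h4]
  refine div_pos ?_ hcardpos
  obtain ⟨h, hhH, hh⟩ := hne
  have h6 : (0 : ℝ) < if (∀ i, ((⟨h, hhH⟩ : ↥H) : G) ∉ H' i) then (1 : ℝ) else 0 := by
    rw [if_pos hh]
    exact one_pos
  exact lt_of_lt_of_le h6 (Finset.single_le_sum
    (f := fun h : ↥H => if (∀ i, (h : G) ∉ H' i) then (1 : ℝ) else 0)
    (fun h _ => by split_ifs <;> norm_num) (Finset.mem_univ _))

end Group

section Main

variable {L : Type*} [Field L] [NumberField L] [IsGalois ℚ L]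

/-- **Frobenius density, exact existence form.** -/
theorem exists_frobenius_not_mem_of_ne
    (H : Subgroup (L ≃ₐ[ℚ] L)) {ι : Type*} [Fintype ι] (H' : ι → Subgroup (L ≃ₐ[ℚ] L))
    (hnormal : ∀ i, ∀ τ ∈ H, ∀ σ ∈ H' i, τ * σ * τ⁻¹ ∈ H' i)
    (hne : ∃ h ∈ H, ∀ i, h ∉ H' i) (B : ℕ) :
    ∃ (l : ℕ) (P : Ideal (𝓞 L)) (σ : L ≃ₐ[ℚ] L), l.Prime ∧ B < l ∧ P.IsPrime ∧ (l : 𝓞 L) ∈ P ∧
      σ ∈ H ∧ (∀ i, σ ∉ H' i) ∧ ∀ x : 𝓞 L, σ • x - x ^ l ∈ P := by
  classical
  set U : Finset ι → Subgroup (L ≃ₐ[ℚ] L) := fun D => interSub H H' D with hU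
  have hUle : ∀ D, U D ≤ H := fun D => interSub_le H H' D
  have hUnormal : ∀ D, ∀ τ ∈ H, ∀ σ ∈ U D, τ * σ * τ⁻¹ ∈ U D := fun D => interSub_normal hnormal D
  -- the bounds
  obtain ⟨dH, hdH⟩ := exists_bound_frob_mem H
  obtain ⟨dcH, hdcH⟩ := exists_bound_conj_mem H
  obtain ⟨du, hdu⟩ := exists_bound_frob_unique (L := L)
  have hdU := fun D => exists_bound_frob_mem (U D)
  choose dU hdU using hdU
  have hdc := fun D => exists_bound_conj_mem (U D)
  choose dc hdc using hdc
  set D₀ : ℕ := max B (dH + dcH + du + ∑ D, dU D + ∑ D, dc D) with hD₀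
  have hBD : B ≤ D₀ := le_max_left _ _
  have hdHD : dH ≤ D₀ := le_trans (by omega) (le_max_right _ _)
  have hdcHD : dcH ≤ D₀ := le_trans (by omega) (le_max_right _ _)
  have hduD : du ≤ D₀ := le_trans (by omega) (le_max_right _ _)
  have hdUD : ∀ D, dU D ≤ D₀ := fun D =>
    le_trans (le_trans (Finset.single_le_sum (f := dU) (fun _ _ => Nat.zero_le _)
      (Finset.mem_univ D)) (by omega)) (le_max_right _ _)
  have hdcD : ∀ D, dc D ≤ D₀ := fun D =>
    le_trans (le_trans (Finset.single_le_sum (f := dc) (fun _ _ => Nat.zero_le _)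
      (Finset.mem_univ D)) (by omega)) (le_max_right _ _)
  -- a prime of `𝓞 L` above every prime of an intermediate field
  have hPexE : ∀ (E : IntermediateField ℚ L) (v : HeightOneSpectrum (𝓞 E)),
      ∃ P : Ideal (𝓞 L), P.IsPrime ∧ P.comap (algebraMap (𝓞 E) (𝓞 L)) = v.asIdeal := by
    intro E v
    haveI := v.isMaximal
    obtain ⟨P, hPmax, hPv⟩ := Ideal.exists_ideal_over_maximal_of_isIntegral (S := 𝓞 L) v.asIdeal (by
      rw [(RingHom.injective_iff_ker_eq_bot (algebraMap (𝓞 E) (𝓞 L))).mp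
        (FaithfulSMul.algebraMap_injective _ _)]
      exact bot_le)
    exact ⟨P, hPmax.isPrime, hPv⟩
  have hPex := hPexE (IntermediateField.fixedField H)
  choose PP hPPprime hPPcomap using hPex
  -- norms
  set nv : HeightOneSpectrum (𝓞 (IntermediateField.fixedField H)) → ℕ :=
    fun v => absNorm v.asIdeal with hnv
  have hnv0 : ∀ v, nv v ≠ 0 := by
    intro v
    rw [hnv]
    simp only [Ne, absNorm_eq_zero_iff]
    exact v.ne_bot
  have hnvP : ∀ v, ((nv v : ℕ) : 𝓞 L) ∈ PP v := by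
    intro v
    have h1 : ((nv v : ℕ) : 𝓞 (IntermediateField.fixedField H)) ∈ v.asIdeal :=
      absNorm_mem _
    have h2 : ((nv v : ℕ) : 𝓞 (IntermediateField.fixedField H)) ∈
        (PP v).comap (algebraMap (𝓞 (IntermediateField.fixedField H)) (𝓞 L)) := by
      rw [hPPcomap v]; exact h1
    rw [Ideal.mem_comap, map_natCast] at h2
    exact h2
  -- Frobenius elements
  have hFex : ∀ v, ∃ σ : L ≃ₐ[ℚ] L, (nv v).Prime → ∀ x : 𝓞 L, σ • x - x ^ (nv v) ∈ PP v := by
    intro v
    by_cases h : (nv v).Prime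
    · haveI := hPPprime v
      obtain ⟨σ, hσ⟩ := exists_frob (PP v) (nv v) h (hnvP v)
      exact ⟨σ, fun _ => hσ⟩
    · exact ⟨1, fun h' => absurd h' h⟩
  choose σ hσ using hFex
  -- the good set and the bad sets
  let X : Set (HeightOneSpectrum (𝓞 (IntermediateField.fixedField H))) :=
    {v | (nv v).Prime ∧ D₀ < nv v}
  let bad : ι → Set (HeightOneSpectrum (𝓞 (IntermediateField.fixedField H))) :=
    fun i => {v | σ v ∈ H' i}
  have hσH : ∀ v ∈ X, σ v ∈ H := fun v hv =>
    hdH v.asIdeal hv.1 (lt_of_le_of_lt hdHD hv.2) (PP v) (hPPprime v) (hPPcomap v) (σ v)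
      (hσ v hv.1)
  have hσU : ∀ D, ∀ v ∈ X, (∀ i ∈ D, v ∈ bad i) → σ v ∈ U D := fun D v hv hvD =>
    mem_interSub.mpr ⟨hσH v hv, hvD⟩
  -- the maps
  let τ : ∀ D, CosetT H (U D) → (L ≃ₐ[ℚ] L) := fun D t => ((Quotient.out t : ↥H) : L ≃ₐ[ℚ] L)
  have hτ : ∀ D t, τ D t ∈ H := fun D t => (Quotient.out t : ↥H).2
  let J : ∀ D, HeightOneSpectrum (𝓞 (IntermediateField.fixedField H)) → CosetT H (U D) →
      HeightOneSpectrum (𝓞 (IntermediateField.fixedField (U D))) :=
    fun D v t => @underPrime L _ _ (IntermediateField.fixedField (U D))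
      (conjIdeal (τ D t) (PP v)) (@conjIdeal_isPrime _ _ _ _ _ (hPPprime v)) (nv v) (hnv0 v)
      (natCast_mem_conjIdeal (hnvP v))
  have hJasIdeal : ∀ D v t, (J D v t).asIdeal = (conjIdeal (τ D t) (PP v)).comap
      (algebraMap (𝓞 (IntermediateField.fixedField (U D))) (𝓞 L)) := fun D v t => rfl
  have hJnorm : ∀ D, ∀ v ∈ X, (∀ i ∈ D, v ∈ bad i) → ∀ t,
      absNorm (J D v t).asIdeal = absNorm v.asIdeal := by
    intro D v hv hvD t
    rw [hJasIdeal]
    haveI := hPPprime v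
    exact absNorm_comap_of_frob_mem (U D) (conjIdeal (τ D t) (PP v)) (nv v) hv.1
      (natCast_mem_conjIdeal (hnvP v)) (τ D t * σ v * (τ D t)⁻¹)
      (hUnormal D (τ D t) (hτ D t) (σ v) (hσU D v hv hvD)) (frob_conj (hσ v hv.1) (τ D t))
  have hJdeg : ∀ D, ∀ v ∈ X, (∀ i ∈ D, v ∈ bad i) → ∀ t,
      J D v t ∈ degOne ↥(IntermediateField.fixedField (U D)) := by
    intro D v hv hvD t
    show (absNorm (J D v t).asIdeal).Prime
    rw [hJnorm D v hv hvD t]
    exact hv.1
  have hJinj : ∀ D, ∀ v ∈ X, (∀ i ∈ D, v ∈ bad i) → ∀ v' ∈ X, (∀ i ∈ D, v' ∈ bad i) →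
      ∀ t t', J D v t = J D v' t' → v = v' ∧ t = t' := by
    intro D v hv hvD v' hv' hvD' t t' heq
    have hQ : (conjIdeal (τ D t) (PP v)).comap
        (algebraMap (𝓞 (IntermediateField.fixedField (U D))) (𝓞 L)) =
        (conjIdeal (τ D t') (PP v')).comap
        (algebraMap (𝓞 (IntermediateField.fixedField (U D))) (𝓞 L)) := by
      rw [← hJasIdeal, ← hJasIdeal, heq]
    have hvv : v = v' := by
      apply HeightOneSpectrum.ext
      ext x
      rw [← hPPcomap v, ← hPPcomap v', mem_comap_iff_of_le (hUle D) (PP v) (hτ D t) x,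
        mem_comap_iff_of_le (hUle D) (PP v') (hτ D t') x, hQ]
    subst hvv
    refine ⟨rfl, ?_⟩
    haveI := hPPprime v
    have hnormprime : (absNorm ((conjIdeal (τ D t) (PP v)).comap
        (algebraMap (𝓞 (IntermediateField.fixedField (U D))) (𝓞 L)))).Prime := by
      rw [← hJasIdeal, hJnorm D v hv hvD t]
      exact hv.1
    have hρ : τ D t' * (τ D t)⁻¹ ∈ U D := by
      refine hdc D (nv v) hv.1 (lt_of_le_of_lt (hdcD D) hv.2) (conjIdeal (τ D t) (PP v))
        inferInstance (natCast_mem_conjIdeal (hnvP v)) hnormprime (τ D t' * (τ D t)⁻¹) ?_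
      rw [conjIdeal_conjIdeal, inv_mul_cancel_right]
      exact hQ.symm
    have hρ' : (τ D t)⁻¹ * τ D t' ∈ U D := by
      have := hUnormal D (τ D t)⁻¹ (H.inv_mem (hτ D t)) _ hρ
      simpa [mul_assoc] using this
    have hmk : (QuotientGroup.mk (Quotient.out t) : CosetT H (U D)) =
        QuotientGroup.mk (Quotient.out t') := by
      rw [QuotientGroup.eq, Subgroup.mem_subgroupOf]
      simpa using hρ'
    rw [QuotientGroup.out_eq', QuotientGroup.out_eq'] at hmk
    exact hmk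
  -- surjectivity up to finitely many primes
  have hJsurj : ∀ D, {w | w ∈ degOne ↥(IntermediateField.fixedField (U D)) ∧
      ¬ ∃ v ∈ X, (∀ i ∈ D, v ∈ bad i) ∧ ∃ t, J D v t = w}.Finite := by
    intro D
    have hfin : {w : HeightOneSpectrum (𝓞 (IntermediateField.fixedField (U D))) |
        absNorm w.asIdeal ≤ D₀}.Finite := by
      have h1 := Ideal.finite_setOfPred_absNorm_le (S := 𝓞 (IntermediateField.fixedField (U D))) D₀
      exact Set.Finite.preimage (f := fun w : HeightOneSpectrum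
        (𝓞 (IntermediateField.fixedField (U D))) => w.asIdeal)
        (fun v _ w _ h => HeightOneSpectrum.ext h) h1
    refine hfin.subset fun w hw => ?_
    by_contra hlt
    rw [Set.mem_ofPred_eq, not_le] at hlt
    refine hw.2 ?_
    have hl : (absNorm w.asIdeal).Prime := hw.1
    set l : ℕ := absNorm w.asIdeal with hldef
    -- a prime `Q` of `𝓞 L` above `w` and its Frobenius element
    obtain ⟨Q, hQprime, hQw⟩ := hPexE (IntermediateField.fixedField (U D)) w
    haveI := hQprime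
    have hlQ : (l : 𝓞 L) ∈ Q := by
      have h1 : ((l : ℕ) : 𝓞 (IntermediateField.fixedField (U D))) ∈ w.asIdeal := absNorm_mem _
      rw [← hQw, Ideal.mem_comap, map_natCast] at h1
      exact h1
    obtain ⟨σQ, hσQ⟩ := exists_frob Q l hl hlQ
    have hσQU : σQ ∈ U D :=
      hdU D w.asIdeal hl (lt_of_le_of_lt (hdUD D) hlt) Q hQprime hQw σQ hσQ
    -- the prime of the fixed field of `H` below `Q`
    set v : HeightOneSpectrum (𝓞 (IntermediateField.fixedField H)) :=
      underPrime (IntermediateField.fixedField H) Q l hl.ne_zero hlQ with hv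
    have hvQ : v.asIdeal = Q.comap (algebraMap (𝓞 (IntermediateField.fixedField H)) (𝓞 L)) := rfl
    have hnvl : nv v = l := by
      show absNorm v.asIdeal = l
      rw [hvQ]
      exact absNorm_comap_of_frob_mem H Q l hl hlQ σQ (hUle D hσQU) hσQ
    have hvX : v ∈ X := ⟨by rw [hnvl]; exact hl, by rw [hnvl]; exact hlt⟩
    -- `Q` is a conjugate of `PP v` by an element of `H`
    haveI := hPPprime v
    haveI := isInvariant_ringOfIntegers (L := L)
    have hlPP : (l : 𝓞 L) ∈ PP v := by rw [← hnvl]; exact hnvP v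
    obtain ⟨g, hg⟩ := Algebra.IsInvariant.exists_smul_of_under_eq ℤ (𝓞 L) (L ≃ₐ[ℚ] L) (PP v) Q
      ((under_int_eq (PP v) l hl hlPP).trans (under_int_eq Q l hl hlQ).symm)
    have hQconj : Q = conjIdeal g (PP v) := by
      rw [hg]
      ext x
      rw [Ideal.mem_pointwise_smul_iff_inv_smul_mem, mem_conjIdeal]
    have hgH : g ∈ H := by
      refine hdcH l hl (lt_of_le_of_lt hdcHD hlt) (PP v) (hPPprime v) hlPP ?_ g ?_
      · rw [hPPcomap v]
        show (nv v).Prime
        rw [hnvl]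
        exact hl
      · rw [← hQconj, hPPcomap v, hvQ]
    -- the Frobenius elements agree
    have hfrobv : ∀ x : 𝓞 L, σ v • x - x ^ l ∈ PP v := by
      have h1 := hσ v hvX.1
      rw [hnvl] at h1
      exact h1
    have hfrobQ : ∀ x : 𝓞 L, (g * σ v * g⁻¹) • x - x ^ l ∈ Q := by
      rw [hQconj]
      exact frob_conj hfrobv g
    have hσeq : σQ = g * σ v * g⁻¹ :=
      hdu l hl (lt_of_le_of_lt hduD hlt) Q hQprime hlQ σQ _ hσQ hfrobQ
    have hσvU : σ v ∈ U D := by
      have h1 := hUnormal D g⁻¹ (H.inv_mem hgH) σQ hσQU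
      rw [hσeq] at h1
      have h2 : g⁻¹ * (g * σ v * g⁻¹) * g⁻¹⁻¹ = σ v := by group
      rwa [h2] at h1
    refine ⟨v, hvX, (mem_interSub.mp hσvU).2, QuotientGroup.mk ⟨g, hgH⟩, ?_⟩
    -- the coset representative
    obtain ⟨u, hu⟩ := QuotientGroup.mk_out_eq_mul ((U D).subgroupOf H) (⟨g, hgH⟩ : ↥H)
    have huU : ((u : ↥H) : L ≃ₐ[ℚ] L) ∈ U D := Subgroup.mem_subgroupOf.mp u.2
    have hτeq : τ D (QuotientGroup.mk ⟨g, hgH⟩) = g * ((u : ↥H) : L ≃ₐ[ℚ] L) := by
      show ((Quotient.out (QuotientGroup.mk (⟨g, hgH⟩ : ↥H) : CosetT H (U D)) : ↥H) :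
        L ≃ₐ[ℚ] L) = _
      rw [hu]
      rfl
    apply HeightOneSpectrum.ext
    rw [hJasIdeal, ← hQw, hτeq, hQconj]
    ext x
    rw [Ideal.mem_comap, Ideal.mem_comap, mem_conjIdeal, mem_conjIdeal]
    have hfix : (g * ((u : ↥H) : L ≃ₐ[ℚ] L))⁻¹ •
        algebraMap (𝓞 (IntermediateField.fixedField (U D))) (𝓞 L) x =
        g⁻¹ • algebraMap (𝓞 (IntermediateField.fixedField (U D))) (𝓞 L) x := by
      have h1 : (g * ((u : ↥H) : L ≃ₐ[ℚ] L))⁻¹ =
          g⁻¹ * (g * ((u : ↥H) : L ≃ₐ[ℚ] L)⁻¹ * g⁻¹) := by group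
      rw [h1, mul_smul, smul_algebraMap_of_mem (U D)
        (hUnormal D g hgH _ ((U D).inv_mem huU)) x]
    rw [hfix]
  -- the density
  have hdens : 0 < ∑ D : Finset ι, (-1 : ℝ) ^ D.card / (Fintype.card (CosetT H (U D))) := by
    simp only [card_cosetT]
    exact density_pos H H' hne
  obtain ⟨v, hvX, hv⟩ := exists_degOne_forall_not_mem (IntermediateField.fixedField H)
    (fun D => ↥(IntermediateField.fixedField (U D))) (fun D => CosetT H (U D)) hdens X bad J
    hJnorm hJdeg hJinj hJsurj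
  exact ⟨nv v, PP v, σ v, hvX.1, lt_of_le_of_lt hBD hvX.2, hPPprime v, hnvP v, hσH v hvX, hv,
    hσ v hvX.1⟩

end Main

end Fermat.Agent.S29.H69
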