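import Fermat.Agent.S29.H69.FrobCoset

/-!
# Program A / leaf (C) (helper69): the consumer shape (F1) = (FROB) of helper14's top

`frob_F1`: for every finite extension `L / ℚ` inside `ℚ̄`, every finite set `S` of primes and
every `σ ∈ Gal(ℚ̄/ℚ)` there are a prime `ℓ ∉ S`, a valuation subring `A` of `ℚ̄` over `ℓ`, a
Frobenius element `φ` at `A` and `n : ℕ` such that `σ` and `φ ^ n` agree on `L`.
-/

set_option autoImplicit false
set_option linter.style.haveILetI false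

namespace Fermat.Agent.S29.H69

local notation "Qbar" => AlgebraicClosure ℚ
local notation "Γ" => (AlgebraicClosure ℚ ≃ₐ[ℚ] AlgebraicClosure ℚ)

/-- **(F1) = (FROB)**, verbatim the shape of helper14's consumer. -/
theorem frob_F1 : ∀ (L : IntermediateField ℚ Qbar), FiniteDimensional ℚ L → ∀ (S : Finset ℕ)
    (σ : Γ), ∃ (ℓ : ℕ) (A : ValuationSubring Qbar) (φ : Γ) (n : ℕ), ℓ.Prime ∧ ℓ ∉ S ∧
      A.LiesOverPrime ℓ ∧ A.IsFrobeniusAt φ ℓ ∧ ∀ y ∈ L, σ y = (φ ^ n) y := by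
  intro L hL S σ
  haveI := hL
  obtain ⟨ℓ, A, φ, n, -, hℓ, hℓS, hA, hφ, h1, -⟩ :=
    exists_frobenius_pow_mem_coset L.fixingSubgroup (IntermediateField.fixingSubgroup_isOpen L)
      σ S
  refine ⟨ℓ, A, φ, n, hℓ, hℓS, hA, hφ, fun y hy => ?_⟩
  rw [IntermediateField.mem_fixingSubgroup_iff] at h1
  have h2 := h1 y hy
  have h3 : (σ⁻¹ * φ ^ n) y = σ⁻¹ ((φ ^ n) y) := rfl
  rw [h3] at h2
  have h4 : σ (σ⁻¹ ((φ ^ n) y)) = (φ ^ n) y := by
    show σ (σ.symm ((φ ^ n) y)) = (φ ^ n) y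
    exact AlgEquiv.apply_symm_apply σ _
  rw [← h4, h2]

/-- (F1) with a positive exponent and a bound. -/
theorem frob_F1_pos (L : IntermediateField ℚ Qbar) [FiniteDimensional ℚ L] (B : ℕ) (σ : Γ) :
    ∃ (ℓ : ℕ) (A : ValuationSubring Qbar) (φ : Γ) (n : ℕ), ℓ.Prime ∧ B < ℓ ∧
      A.LiesOverPrime ℓ ∧ A.IsFrobeniusAt φ ℓ ∧ 0 < n ∧ ∀ y ∈ L, σ y = (φ ^ n) y := by
  haveI := Fermat.Agent.S54.isGalois_algebraicClosure_rat
  obtain ⟨ℓ, A, φ, i, -, hℓ, hBℓ, hA, hφ, h1, -, -, -⟩ :=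
    exists_isFrobeniusAt_pow_mem_both L.fixingSubgroup
      (IntermediateField.fixingSubgroup_isOpen L) σ B
  haveI := Subgroup.quotient_finite_of_isOpen L.fixingSubgroup
    (IntermediateField.fixingSubgroup_isOpen L)
  haveI : L.fixingSubgroup.FiniteIndex := Subgroup.finiteIndex_of_finite_quotient
  obtain ⟨m, hm, -, hmU⟩ := Subgroup.exists_pow_mem_of_index_ne_zero
    (Subgroup.FiniteIndex.index_ne_zero (H := L.fixingSubgroup)) φ
  refine ⟨ℓ, A, φ, i + m, hℓ, hBℓ, hA, hφ, by omega, fun y hy => ?_⟩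
  have h5 : σ⁻¹ * φ ^ (i + m) ∈ L.fixingSubgroup := by
    have h6 : σ⁻¹ * φ ^ (i + m) = σ⁻¹ * φ ^ i * φ ^ m := by rw [pow_add, mul_assoc]
    rw [h6]
    exact L.fixingSubgroup.mul_mem h1 hmU
  rw [IntermediateField.mem_fixingSubgroup_iff] at h5
  have h2 := h5 y hy
  have h3 : (σ⁻¹ * φ ^ (i + m)) y = σ⁻¹ ((φ ^ (i + m)) y) := rfl
  rw [h3] at h2
  have h4 : σ (σ⁻¹ ((φ ^ (i + m)) y)) = (φ ^ (i + m)) y := by
    show σ (σ.symm ((φ ^ (i + m)) y)) = (φ ^ (i + m)) y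
    exact AlgEquiv.apply_symm_apply σ _
  rw [← h4, h2]

end Fermat.Agent.S29.H69
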