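import Fermat.Agent.S29.H69.FrobCyclic
import Fermat.Agent.S41.H70.Qbar

/-!
# Program A / leaf (C) (helper69): Frobenius density, exact cyclic form, for valuation subrings

Transport of `exists_prime_forall_frobenius_zpowers_eq` to the Prelude notion
`ValuationSubring.IsFrobeniusAt` over a Galois extension `Ω / ℚ` (e.g. `AlgebraicClosure ℚ`):

* `exists_prime_forall_isFrobeniusAt_pow_mem`: for an open subgroup `U` of `Gal(Ω/ℚ)` and any
  `g`, there are arbitrarily large primes `l` such that for EVERY valuation subring `A` over `l`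
  and EVERY Frobenius element `σ` at `A`, a power of a conjugate of `σ` lies in `g U`.
* `exists_isFrobeniusAt_pow_mul_inv_mem`: there are `l > B`, `A` over `l`, a Frobenius element
  `σ` at `A` and `n : ℕ` with `σ ^ n * g⁻¹ ∈ U`.
* `isFrobeniusAt_iff`, `isFrobeniusAt_conj`: a congruence characterisation of Frobenius elements
  and their behaviour under conjugation.
-/

set_option autoImplicit false
set_option linter.style.haveILetI false

open NumberField Ideal IsDedekindDomain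
open scoped Pointwise

namespace Fermat.Agent.S29.H69

open Fermat.Agent.S41.H70

section Frob

variable {K Ω : Type*} [Field K] [Field Ω] [Algebra K Ω]

/-- Frobenius elements at `A` are the elements of the decomposition group raising the elements
of `A` to the `q`-th power modulo the maximal ideal. -/
theorem isFrobeniusAt_iff (A : ValuationSubring Ω) (σ : Ω ≃ₐ[K] Ω) (q : ℕ) :
    A.IsFrobeniusAt σ q ↔
      σ ∈ A.decompositionSubgroup K ∧ ∀ a ∈ A, σ a - a ^ q ∈ A.nonunits := by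
  constructor
  · rintro ⟨hdec, h⟩
    refine ⟨hdec, fun a ha => ?_⟩
    have h1 := h (IsLocalRing.residue A ⟨a, ha⟩)
    rw [← IsLocalRing.ResidueField.residue_smul, ← map_pow, ← sub_eq_zero, ← map_sub,
      IsLocalRing.residue_eq_zero_iff, ← ValuationSubring.coe_mem_nonunits_iff] at h1
    exact h1
  · rintro ⟨hdec, h⟩
    refine ⟨hdec, fun x => ?_⟩
    obtain ⟨a, rfl⟩ := IsLocalRing.residue_surjective x
    rw [← IsLocalRing.ResidueField.residue_smul, ← map_pow, ← sub_eq_zero, ← map_sub,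
      IsLocalRing.residue_eq_zero_iff, ← ValuationSubring.coe_mem_nonunits_iff]
    exact h (a : Ω) a.2

/-- Conjugates of Frobenius elements are Frobenius elements at the conjugate valuation
subring. -/
theorem isFrobeniusAt_conj {A : ValuationSubring Ω} {σ : Ω ≃ₐ[K] Ω} {q : ℕ}
    (h : A.IsFrobeniusAt σ q) (τ : Ω ≃ₐ[K] Ω) : (τ • A).IsFrobeniusAt (τ * σ * τ⁻¹) q := by
  rw [isFrobeniusAt_iff] at h ⊢
  obtain ⟨hdec, hcong⟩ := h
  refine ⟨?_, fun a ha => ?_⟩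
  · rw [MulAction.mem_stabilizer_iff, mul_smul, mul_smul, inv_smul_smul]
    congr 1
  · rw [ValuationSubring.mem_pointwise_smul_iff_inv_smul_mem] at ha
    have h1 := hcong (τ⁻¹ • a) ha
    have h2 : (τ * σ * τ⁻¹) a - a ^ q = τ (σ (τ⁻¹ • a) - (τ⁻¹ • a) ^ q) := by
      have h3 : τ (τ⁻¹ • a) = a := by
        show τ (τ⁻¹ a) = a
        exact AlgEquiv.apply_symm_apply τ a
      rw [map_sub, map_pow, h3]
      rfl
    rw [h2]
    rw [ValuationSubring.mem_nonunits_iff_or] at h1 ⊢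
    rcases h1 with h1 | h1
    · left
      rw [h1, map_zero]
    · right
      rw [ValuationSubring.mem_pointwise_smul_iff_inv_smul_mem]
      intro h4
      apply h1
      have h5 : τ⁻¹ • (τ (σ (τ⁻¹ • a) - (τ⁻¹ • a) ^ q))⁻¹ = (σ (τ⁻¹ • a) - (τ⁻¹ • a) ^ q)⁻¹ := by
        rw [← map_inv₀]
        show τ⁻¹ (τ _) = _
        exact AlgEquiv.symm_apply_apply τ _
      rwa [h5] at h4

end Frob

section Abstract

variable {Ω : Type*} [Field Ω] [Algebra ℚ Ω]
variable {L : Type*} [Field L] [NumberField L] [IsGalois ℚ L]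

/-- **Exact cyclic Frobenius density for Frobenius elements at valuation subrings of `Ω`**
(abstract form: `L` a Galois number field embedded in `Ω` by `j`, `r` the restriction
homomorphism). -/
theorem exists_prime_forall_isFrobeniusAt_zpowers_aux (j : L →+* Ω)
    (r : (Ω ≃ₐ[ℚ] Ω) →* (L ≃ₐ[ℚ] L)) (hr : ∀ σ x, j (r σ x) = σ (j x))
    (hrsurj : Function.Surjective r) (g : L ≃ₐ[ℚ] L) (B : ℕ) :
    ∃ l : ℕ, l.Prime ∧ B < l ∧ ∀ A : ValuationSubring Ω, A.LiesOverPrime l →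
      ∀ σ : Ω ≃ₐ[ℚ] Ω, A.IsFrobeniusAt σ l →
        ∃ τ : Ω ≃ₐ[ℚ] Ω, Subgroup.zpowers (r (τ * σ * τ⁻¹)) = Subgroup.zpowers g := by
  obtain ⟨l, hl, hBl, hall⟩ := exists_prime_forall_frobenius_zpowers_eq g B
  refine ⟨l, hl, hBl, fun A hA σ hσ => ?_⟩
  -- the prime of `𝓞 L` below `A`
  set P : Ideal (𝓞 L) := (IsLocalRing.maximalIdeal A).comap (toValuationSubring j A) with hP
  have hPprime : P.IsPrime := Ideal.comap_isPrime _ _
  have hmemP : ∀ x : 𝓞 L, x ∈ P ↔ j (x : L) ∈ A.nonunits := by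
    intro x
    rw [hP, Ideal.mem_comap, ← ValuationSubring.coe_mem_nonunits_iff, coe_toValuationSubring]
  have hlP : (l : 𝓞 L) ∈ P := by
    rw [hmemP]
    have : j (((l : 𝓞 L) : 𝓞 L) : L) = (l : Ω) := by simp
    rw [this]
    exact hA
  have hfrob : ∀ x : 𝓞 L, r σ • x - x ^ l ∈ P := by
    intro x
    rw [hmemP]
    have h1 : j (((r σ • x - x ^ l : 𝓞 L) : 𝓞 L) : L) = σ (j (x : L)) - j (x : L) ^ l := by
      have h2 : ((r σ • x - x ^ l : 𝓞 L) : L) = r σ (x : L) - (x : L) ^ l := rfl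
      rw [h2, map_sub, map_pow, hr]
    rw [h1]
    exact isFrobeniusAt_sub_pow_mem hσ
      (mem_valuationSubring_of_isIntegral A (map_isIntegral_int j x.2))
  obtain ⟨τ₀, hτ₀⟩ := hall P hPprime hlP (r σ) hfrob
  obtain ⟨τ, rfl⟩ := hrsurj τ₀
  refine ⟨τ, ?_⟩
  rw [← hτ₀]
  simp

end Abstract

section Open

variable {Ω : Type*} [Field Ω] [Algebra ℚ Ω] [IsGalois ℚ Ω]

/-- **Exact cyclic Frobenius density modulo an open subgroup, "for all" form.**  For an open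
subgroup `U` of `Gal(Ω/ℚ)` and `g ∈ Gal(Ω/ℚ)` there are arbitrarily large primes `l` such that
for every valuation subring `A` over `l` and every Frobenius element `σ` at `A`, some power of
some conjugate of `σ` lies in the coset `g U` — in the form `(τ σ τ⁻¹) ^ n * g⁻¹ ∈ ker ≤ U`
where the kernel is that of the restriction to a finite Galois subextension; we state both
`_ * g⁻¹ ∈ U` and `g⁻¹ * _ ∈ U`. -/
theorem exists_prime_forall_isFrobeniusAt_pow_mem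
    (U : Subgroup (Ω ≃ₐ[ℚ] Ω)) (hopen : IsOpen (U : Set (Ω ≃ₐ[ℚ] Ω))) (g : Ω ≃ₐ[ℚ] Ω) (B : ℕ) :
    ∃ l : ℕ, l.Prime ∧ B < l ∧ ∀ A : ValuationSubring Ω, A.LiesOverPrime l →
      ∀ σ : Ω ≃ₐ[ℚ] Ω, A.IsFrobeniusAt σ l →
        ∃ (τ : Ω ≃ₐ[ℚ] Ω) (n : ℕ),
          (τ * σ * τ⁻¹) ^ n * g⁻¹ ∈ U ∧ g⁻¹ * (τ * σ * τ⁻¹) ^ n ∈ U := by
  have hnhds : (U : Set (Ω ≃ₐ[ℚ] Ω)) ∈ nhds (1 : Ω ≃ₐ[ℚ] Ω) := hopen.mem_nhds U.one_mem
  obtain ⟨E, hfd, hnormal₁, hE⟩ := (krullTopology_mem_nhds_one_iff_of_normal ℚ Ω _).mp hnhds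
  haveI : NumberField E := by
    refine @NumberField.mk _ _ inferInstance ?_
    convert hfd
    all_goals first
      | rfl
      | exact (subsingleton_rat_module (↥E)).elim _ _
  haveI : Normal ℚ E := by
    convert hnormal₁
    all_goals first
      | rfl
      | exact Rat.algebra_rat_subsingleton.elim _ _
  haveI : IsGalois ℚ E := ⟨⟩
  have hrsurj := AlgEquiv.restrictNormalHom_surjective (F := ℚ) (K₁ := ↥E) Ω
  have hr : ∀ (σ : Ω ≃ₐ[ℚ] Ω) (x : ↥E),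
      algebraMap (↥E) Ω (AlgEquiv.restrictNormalHom (F := ℚ) (K₁ := Ω) ↥E σ x) =
        σ (algebraMap (↥E) Ω x) :=
    fun σ x => AlgEquiv.restrictNormal_commutes σ _ x
  set r := AlgEquiv.restrictNormalHom (F := ℚ) (K₁ := Ω) ↥E with hrdef
  have hker : r.ker ≤ U := by
    intro σ hσ
    rw [MonoidHom.mem_ker] at hσ
    refine hE ?_
    rw [SetLike.mem_coe, IntermediateField.mem_fixingSubgroup_iff]
    intro x hx
    have h1 := hr σ ⟨x, hx⟩
    rw [hσ] at h1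
    exact h1.symm
  obtain ⟨l, hl, hBl, hall⟩ := exists_prime_forall_isFrobeniusAt_zpowers_aux
    (algebraMap (↥E) Ω) r hr hrsurj (r g) B
  refine ⟨l, hl, hBl, fun A hA σ hσ => ?_⟩
  obtain ⟨τ, hτ⟩ := hall A hA σ hσ
  have h1 : r g ∈ Subgroup.zpowers (r (τ * σ * τ⁻¹)) := by
    rw [hτ]
    exact Subgroup.mem_zpowers _
  rw [← mem_powers_iff_mem_zpowers] at h1
  obtain ⟨n, hn⟩ := h1
  have hn' : r ((τ * σ * τ⁻¹) ^ n) = r g := by
    rw [map_pow]
    exact hn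
  refine ⟨τ, n, hker ?_, hker ?_⟩
  · rw [MonoidHom.mem_ker, map_mul, map_inv, hn', mul_inv_cancel]
  · rw [MonoidHom.mem_ker, map_mul, map_inv, hn', inv_mul_cancel]

/-- **Exact cyclic Frobenius density modulo an open subgroup, existence form.**  For an open
subgroup `U` of `Gal(Ω/ℚ)`, `g ∈ Gal(Ω/ℚ)` and a bound `B` there are a prime `l > B`, a valuation
subring `A` of `Ω` over `l`, a Frobenius element `σ` at `A` and `n : ℕ` with `σ ^ n ∈ g U`
(and `σ ^ n ∈ U g`). -/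
theorem exists_isFrobeniusAt_pow_mem
    (U : Subgroup (Ω ≃ₐ[ℚ] Ω)) (hopen : IsOpen (U : Set (Ω ≃ₐ[ℚ] Ω))) (g : Ω ≃ₐ[ℚ] Ω) (B : ℕ) :
    ∃ (l : ℕ) (A : ValuationSubring Ω) (σ : Ω ≃ₐ[ℚ] Ω) (n : ℕ), l.Prime ∧ B < l ∧
      A.LiesOverPrime l ∧ A.IsFrobeniusAt σ l ∧ σ ^ n * g⁻¹ ∈ U ∧ g⁻¹ * σ ^ n ∈ U := by
  obtain ⟨l, hl, hBl, hall⟩ := exists_prime_forall_isFrobeniusAt_pow_mem U hopen g B
  obtain ⟨A, hA, σ, hσ⟩ := Fermat.Agent.S54.exists_isFrobeniusAt_of_isGalois Ω l hl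
  obtain ⟨τ, n, h1, h2⟩ := hall A hA σ hσ
  exact ⟨l, τ • A, τ * σ * τ⁻¹, n, hl, hBl, smul_liesOverPrime A τ hA,
    isFrobeniusAt_conj hσ τ, h1, h2⟩

end Open

section Qbar

local notation "Γ" => (AlgebraicClosure ℚ ≃ₐ[ℚ] AlgebraicClosure ℚ)

/-- **Leaf (C) of Program A, `ℚ̄` form.**  Let `U` be an open subgroup of `Gal(ℚ̄/ℚ)`,
`g ∈ Gal(ℚ̄/ℚ)` and `m ≠ 0`.  Then there are a prime `l ∤ m`, a valuation subring `A` of `ℚ̄`
lying over `l`, a Frobenius element `σ` at `A` and `n : ℕ` such that `σ ^ n ∈ g U ∩ U g`. -/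
theorem exists_isFrobeniusAt_pow_mem_qbar
    (U : Subgroup Γ) (hopen : IsOpen (U : Set Γ)) (g : Γ) (m : ℕ) (hm : m ≠ 0) :
    ∃ (l : ℕ) (A : ValuationSubring (AlgebraicClosure ℚ)) (σ : Γ) (n : ℕ), l.Prime ∧ ¬ l ∣ m ∧
      A.LiesOverPrime l ∧ A.IsFrobeniusAt σ l ∧ σ ^ n * g⁻¹ ∈ U ∧ g⁻¹ * σ ^ n ∈ U := by
  haveI := Fermat.Agent.S54.isGalois_algebraicClosure_rat
  obtain ⟨l, A, σ, n, hl, hml, hA, hσ, h1, h2⟩ := exists_isFrobeniusAt_pow_mem U hopen g m
  exact ⟨l, A, σ, n, hl, fun hdvd => absurd (Nat.le_of_dvd (Nat.pos_of_ne_zero hm) hdvd)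
    (not_le_of_gt hml), hA, hσ, h1, h2⟩

end Qbar

end Fermat.Agent.S29.H69
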